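/-
GATE-F / S40, node GF-D3 HECKE, file 1 (helper17): the LOGARITHMIC DERIVATIVE OF THE HECKE NORM.

`θ = q d/dq` on Laurent series (`thetaL`, `GJ/Haupt/Theta.lean`), `dlogL u := θ u / u` over a field.
For the multiplicative Hecke operator `heckeNorm ℓ u = u(q^ℓ) · N_ℓ(u)` (`GJ/Kum/HeckeNorm.lean`) on
Laurent series over a field `K` with `(ℓ : K) ≠ 0`, and `u ≠ 0`:

  **`dlogL (heckeNorm ℓ u) = ℓ • (dlogL u)(q^ℓ) + U_ℓ (dlogL u)`**,   `U_ℓ f = sect ℓ 0 f = ∑ f_{ℓn} qⁿ`,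

i.e. on coefficients `b_n ↦ b_{ℓn} + [ℓ ∣ n] ℓ b_{n/ℓ}` — the weight-2 formal Hecke operator `T_ℓ`
(`coeff_dlogL_heckeNorm`, and `coeff_dlogL_heckeNorm_nat` in the shape of `GF/D4/DS.lean`).

* ring level: `thetaL_qExpand` (chain rule), `thetaL_scaleHom`, `sum_scaleHom` (averaging over the
  `ℓ`-th roots of unity is `ℓ · U_ℓ`);
* `dlogL`, `dlogL_mul`, `dlogL_prod`, `dlogL_pow`, `dlogL_C`, `dlogL_qExpand`, `dlogL_scaleHom`,
  `coeffMap_dlogL`;
* `dlogL_normL_of_root`, `dlogL_heckeNorm_of_root` (with a primitive `ℓ`-th root of unity in `K`,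
  from helper61's product formula `qExpand_normL_eq_prod`), `dlogL_normL`, **`dlogL_heckeNorm`**
  (any field with `(ℓ : K) ≠ 0`, by base change to the algebraic closure).
-/
import Mathlib
import Fermat.Agent.GJ.Kum.ZetaProd
import Fermat.Agent.GJ.Haupt.Theta

set_option autoImplicit false

noncomputable section

namespace Fermat.Agent.GF.D3

open HahnSeries ModularCurve Finset
open Fermat.Agent.GJ.Kum Fermat.Agent.GJ.Haupt
open Fermat.Agent.S28 (scaleHom scaleHom_coeff)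

/-! ### Ring level -/

section Ring

variable {R : Type*} [CommRing R] (ℓ : ℕ) [NeZero ℓ]

/-- the chain rule for `q ↦ q^ℓ` -/
theorem thetaL_qExpand (x : LaurentSeries R) :
    thetaL (qExpand R ℓ x) = (ℓ : R) • qExpand R ℓ (thetaL x) := by
  ext n
  rw [thetaL_coeff, HahnSeries.coeff_smul, smul_eq_mul]
  by_cases hn : (ℓ : ℤ) ∣ n
  · obtain ⟨m, rfl⟩ := hn
    rw [qExpand_coeff_mul, qExpand_coeff_mul, thetaL_coeff]
    push_cast
    ring
  · rw [qExpand_coeff_of_not_dvd ℓ _ hn, qExpand_coeff_of_not_dvd ℓ _ hn, mul_zero, mul_zero]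

/-- `θ` commutes with `q ↦ c q` -/
theorem thetaL_scaleHom (c : Rˣ) (x : LaurentSeries R) :
    thetaL (scaleHom R c x) = scaleHom R c (thetaL x) := by
  ext n
  rw [thetaL_coeff, scaleHom_coeff, scaleHom_coeff, thetaL_coeff]
  ring

/-- averaging over the `ℓ`-th roots of unity: `∑_b f(z^b q) = ℓ · (U_ℓ f)(q^ℓ)` -/
theorem sum_scaleHom [IsDomain R] (z : Rˣ) (hz : IsPrimitiveRoot (z : R) ℓ)
    (f : LaurentSeries R) :
    ∑ b ∈ range ℓ, scaleHom R (z ^ b) f = (ℓ : R) • qExpand R ℓ (sect ℓ 0 f) := by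
  have hzu : IsPrimitiveRoot z ℓ := by
    rw [← IsPrimitiveRoot.coe_units_iff]
    exact hz
  ext n
  rw [HahnSeries.coeff_sum, HahnSeries.coeff_smul, smul_eq_mul]
  simp only [scaleHom_coeff]
  rw [← Finset.sum_mul]
  have hsum : ∀ b : ℕ, (((z ^ b) ^ n : Rˣ) : R) = (((z ^ n : Rˣ) : R)) ^ b := by
    intro b
    rw [← Units.val_pow_eq_pow_val, ← zpow_natCast (z ^ n) b, ← zpow_natCast z b, ← zpow_mul,
      ← zpow_mul, mul_comm]
  simp only [hsum]
  by_cases hn : (ℓ : ℤ) ∣ n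
  · have h1 : z ^ n = 1 := (hzu.zpow_eq_one_iff_dvd n).2 hn
    obtain ⟨m, rfl⟩ := hn
    rw [h1, qExpand_coeff_mul, coeff_sect]
    simp
  · rw [qExpand_coeff_of_not_dvd ℓ _ hn, mul_zero]
    have h1 : z ^ n ≠ 1 := fun h => hn ((hzu.zpow_eq_one_iff_dvd n).1 h)
    have h2 : ((z ^ n : Rˣ) : R) ≠ 1 := fun h => h1 (Units.ext h)
    have h3 : (((z ^ n : Rˣ) : R)) ^ ℓ = 1 := by
      rw [← Units.val_pow_eq_pow_val, ← zpow_natCast (z ^ n) ℓ, ← zpow_mul, mul_comm, zpow_mul,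
        zpow_natCast, hzu.pow_eq_one, one_zpow, Units.val_one]
    have h4 := geom_sum_mul (((z ^ n : Rˣ) : R)) ℓ
    rw [h3, sub_self] at h4
    rcases mul_eq_zero.1 h4 with h5 | h5
    · rw [h5, zero_mul]
    · exact absurd (sub_eq_zero.1 h5) h2

end Ring

/-! ### The logarithmic derivative over a field -/

section Field

variable {K : Type*} [Field K] (ℓ : ℕ) [NeZero ℓ]

/-- the logarithmic derivative `θ u / u`, `θ = q d/dq` -/
def dlogL (u : LaurentSeries K) : LaurentSeries K := thetaL u * u⁻¹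

theorem dlogL_def (u : LaurentSeries K) : dlogL u = thetaL u * u⁻¹ := rfl

theorem dlogL_mul_self {u : LaurentSeries K} (hu : u ≠ 0) : dlogL u * u = thetaL u := by
  rw [dlogL, mul_assoc, inv_mul_cancel₀ hu, mul_one]

@[simp] theorem dlogL_zero : dlogL (0 : LaurentSeries K) = 0 := by
  rw [dlogL, inv_zero, mul_zero]

@[simp] theorem dlogL_one : dlogL (1 : LaurentSeries K) = 0 := by
  rw [dlogL, thetaL_one, zero_mul]

theorem dlogL_C (c : K) : dlogL (HahnSeries.C c : LaurentSeries K) = 0 := by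
  rw [dlogL, thetaL_C, zero_mul]

theorem dlogL_mul {u v : LaurentSeries K} (hu : u ≠ 0) (hv : v ≠ 0) :
    dlogL (u * v) = dlogL u + dlogL v := by
  rw [dlogL, dlogL, dlogL, thetaL_mul, mul_inv]
  field_simp

theorem dlogL_inv {u : LaurentSeries K} (hu : u ≠ 0) : dlogL u⁻¹ = -dlogL u := by
  have h := dlogL_mul hu (inv_ne_zero hu)
  rw [mul_inv_cancel₀ hu, dlogL_one] at h
  exact eq_neg_of_add_eq_zero_right h.symm

theorem dlogL_div {u v : LaurentSeries K} (hu : u ≠ 0) (hv : v ≠ 0) :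
    dlogL (u / v) = dlogL u - dlogL v := by
  rw [div_eq_mul_inv, dlogL_mul hu (inv_ne_zero hv), dlogL_inv hv, sub_eq_add_neg]

theorem dlogL_prod {ι : Type*} (s : Finset ι) (f : ι → LaurentSeries K)
    (hf : ∀ i ∈ s, f i ≠ 0) : dlogL (∏ i ∈ s, f i) = ∑ i ∈ s, dlogL (f i) := by
  classical
  induction s using Finset.induction_on with
  | empty => simp
  | insert a s ha ih =>
    have h1 : f a ≠ 0 := hf a (Finset.mem_insert_self a s)
    have h2 : ∀ i ∈ s, f i ≠ 0 := fun i hi => hf i (Finset.mem_insert_of_mem hi)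
    rw [Finset.prod_insert ha, Finset.sum_insert ha,
      dlogL_mul h1 (Finset.prod_ne_zero_iff.2 h2), ih h2]

theorem dlogL_pow (u : LaurentSeries K) (n : ℕ) : dlogL (u ^ n) = (n : K) • dlogL u := by
  by_cases hu : u = 0
  · subst hu
    rcases Nat.eq_zero_or_pos n with rfl | hn
    · simp
    · rw [zero_pow hn.ne', dlogL_zero, smul_zero]
  · induction n with
    | zero => simp
    | succ n ih =>
      rw [pow_succ, dlogL_mul (pow_ne_zero n hu) hu, ih]
      push_cast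
      rw [add_smul, one_smul]

/-- a `p`-th power has zero logarithmic derivative in characteristic `p` -/
theorem dlogL_pow_char (p : ℕ) [CharP K p] (u : LaurentSeries K) : dlogL (u ^ p) = 0 := by
  rw [dlogL_pow, CharP.cast_eq_zero, zero_smul]

theorem dlogL_qExpand (u : LaurentSeries K) :
    dlogL (qExpand K ℓ u) = (ℓ : K) • qExpand K ℓ (dlogL u) := by
  rw [dlogL, dlogL, thetaL_qExpand, map_mul, map_inv₀, ← HahnSeries.C_mul_eq_smul,
    ← HahnSeries.C_mul_eq_smul, mul_assoc]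

theorem dlogL_scaleHom (c : Kˣ) (u : LaurentSeries K) :
    dlogL (scaleHom K c u) = scaleHom K c (dlogL u) := by
  rw [dlogL, dlogL, thetaL_scaleHom, map_mul, map_inv₀]

theorem coeffMap_dlogL {K' : Type*} [Field K'] (f : K →+* K') (u : LaurentSeries K) :
    coeffMap f (dlogL u) = dlogL (coeffMap f u) := by
  rw [dlogL, dlogL, map_mul, map_inv₀, coeffMap_thetaL]

theorem coeffMap_injective {K' : Type*} [Field K'] (f : K →+* K') :
    Function.Injective (coeffMap f : LaurentSeries K → LaurentSeries K') :=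
  (coeffMap f).injective

/-! ### The norm and the Hecke norm -/

/-- **log-derivative of the norm = trace of the log-derivative**, with a primitive `ℓ`-th root of
unity in `K`. -/
theorem dlogL_normL_of_root {z : K} (hz : IsPrimitiveRoot z ℓ) {u : LaurentSeries K}
    (hu : u ≠ 0) : dlogL (normL ℓ u) = sect ℓ 0 (dlogL u) := by
  have hℓ : (ℓ : K) ≠ 0 := (hz.neZero').ne
  set zu : Kˣ := Units.mk0 z (hz.ne_zero (NeZero.ne ℓ)) with hzu
  have hzu' : IsPrimitiveRoot (zu : K) ℓ := by simpa [hzu] using hz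
  apply qExpand_injective (R := K) (N := ℓ)
  apply smul_right_injective (LaurentSeries K) hℓ
  show (ℓ : K) • qExpand K ℓ (dlogL (normL ℓ u)) = (ℓ : K) • qExpand K ℓ (sect ℓ 0 (dlogL u))
  rw [← dlogL_qExpand, qExpand_normL_eq_prod ℓ zu hzu' u, ← sum_scaleHom ℓ zu hzu',
    dlogL_prod _ _ fun b _ => (scaleHom_eq_zero_iff (zu ^ b) u).not.2 hu]
  exact Finset.sum_congr rfl fun b _ => dlogL_scaleHom _ _

/-- the same over any field with `(ℓ : K) ≠ 0`. -/
theorem dlogL_normL (hℓ : (ℓ : K) ≠ 0) {u : LaurentSeries K} (hu : u ≠ 0) :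
    dlogL (normL ℓ u) = sect ℓ 0 (dlogL u) := by
  have : NeZero (ℓ : K) := ⟨hℓ⟩
  obtain ⟨z, hz⟩ := HasEnoughRootsOfUnity.exists_primitiveRoot (AlgebraicClosure K) ℓ
  apply coeffMap_injective (algebraMap K (AlgebraicClosure K))
  have hu' : coeffMap (algebraMap K (AlgebraicClosure K)) u ≠ 0 :=
    (map_ne_zero_iff _ (coeffMap_injective _)).2 hu
  rw [coeffMap_dlogL, coeffMap_normL, coeffMap_sect, coeffMap_dlogL,
    dlogL_normL_of_root ℓ hz hu']

theorem normL_ne_zero_field {u : LaurentSeries K} (hu : u ≠ 0) : normL ℓ u ≠ 0 :=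
  ((isUnit_iff_ne_zero.mpr hu).map (normLHom (R := K) ℓ)).ne_zero

theorem heckeNorm_ne_zero_field {u : LaurentSeries K} (hu : u ≠ 0) : heckeNorm ℓ u ≠ 0 :=
  heckeNorm_ne_zero ℓ (normL_ne_zero_field ℓ hu) hu

/-- **the logarithmic derivative of the Hecke norm is the weight-2 Hecke operator of the
logarithmic derivative**: `dlog (T_ℓ u) = ℓ · (dlog u)(q^ℓ) + U_ℓ (dlog u)`. -/
theorem dlogL_heckeNorm (hℓ : (ℓ : K) ≠ 0) {u : LaurentSeries K} (hu : u ≠ 0) :
    dlogL (heckeNorm ℓ u) = (ℓ : K) • qExpand K ℓ (dlogL u) + sect ℓ 0 (dlogL u) := by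
  have h1 : qExpand K ℓ u ≠ 0 := (map_ne_zero_iff _ (qExpand_injective (R := K) (N := ℓ))).2 hu
  rw [heckeNorm, dlogL_mul h1 (normL_ne_zero_field ℓ hu), dlogL_qExpand, dlogL_normL ℓ hℓ hu]

/-- the formal weight-2 Hecke operator `T_ℓ` on Laurent series: `b_n ↦ b_{ℓn} + [ℓ ∣ n] ℓ b_{n/ℓ}` -/
def heckeT2 (f : LaurentSeries K) : LaurentSeries K := (ℓ : K) • qExpand K ℓ f + sect ℓ 0 f

theorem coeff_heckeT2 (f : LaurentSeries K) (n : ℤ) :
    (heckeT2 ℓ f).coeff n =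
      f.coeff ((ℓ : ℤ) * n) + if (ℓ : ℤ) ∣ n then (ℓ : K) * f.coeff (n / ℓ) else 0 := by
  rw [heckeT2, HahnSeries.coeff_add, HahnSeries.coeff_smul, smul_eq_mul, coeff_sect,
    qExpand_coeff, add_comm]
  congr 1
  · rw [Nat.cast_zero, add_zero]
  · split_ifs <;> simp

theorem heckeT2_add (f g : LaurentSeries K) : heckeT2 ℓ (f + g) = heckeT2 ℓ f + heckeT2 ℓ g := by
  rw [heckeT2, heckeT2, heckeT2, map_add, smul_add, sect_add]
  abel

theorem heckeT2_smul (c : K) (f : LaurentSeries K) : heckeT2 ℓ (c • f) = c • heckeT2 ℓ f := by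
  ext n
  simp only [coeff_heckeT2, HahnSeries.coeff_smul, smul_eq_mul]
  split_ifs <;> ring

theorem dlogL_heckeNorm_eq_heckeT2 (hℓ : (ℓ : K) ≠ 0) {u : LaurentSeries K} (hu : u ≠ 0) :
    dlogL (heckeNorm ℓ u) = heckeT2 ℓ (dlogL u) := dlogL_heckeNorm ℓ hℓ hu

/-- coefficient form -/
theorem coeff_dlogL_heckeNorm (hℓ : (ℓ : K) ≠ 0) {u : LaurentSeries K} (hu : u ≠ 0) (n : ℤ) :
    (dlogL (heckeNorm ℓ u)).coeff n = (dlogL u).coeff ((ℓ : ℤ) * n) +
      if (ℓ : ℤ) ∣ n then (ℓ : K) * (dlogL u).coeff (n / ℓ) else 0 := by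
  rw [dlogL_heckeNorm_eq_heckeT2 ℓ hℓ hu, coeff_heckeT2]

/-- coefficient form at natural indices, in the shape of the eigen-relation of `GF/D4/DS.lean` -/
theorem coeff_dlogL_heckeNorm_nat (hℓ : (ℓ : K) ≠ 0) {u : LaurentSeries K} (hu : u ≠ 0)
    (n : ℕ) :
    (dlogL (heckeNorm ℓ u)).coeff (n : ℤ) = (dlogL u).coeff ((n * ℓ : ℕ) : ℤ) +
      if ℓ ∣ n then (ℓ : K) * (dlogL u).coeff ((n / ℓ : ℕ) : ℤ) else 0 := by
  rw [coeff_dlogL_heckeNorm ℓ hℓ hu]
  congr 1
  · congr 1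
    push_cast
    ring
  · by_cases h : ℓ ∣ n
    · rw [if_pos h, if_pos (Int.natCast_dvd_natCast.2 h), Int.natCast_div]
    · rw [if_neg h, if_neg (fun h' => h (Int.natCast_dvd_natCast.1 h'))]

end Field

end Fermat.Agent.GF.D3
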