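/-
GATE-F / S40, node GF-D3 HECKE, file 2 (helper17): REDUCTION COMMUTES WITH THE HECKE NORM, and the
logarithmic derivative of the reduction of `T_ℓ u`.

Gauss frame of `GJ/J1/Val/GaussRedData.lean`: `A` a valuation subring of `L`, `F ⊆ L((q))` with the
Gauss fraction property, stable under the Hecke norm on `A`-integral series (`hmem`).  For `x ∈ Rw`
and `Tx ∈ F` with `q`-expansion `heckeNorm ℓ x`:

* `isFrac_heckeNorm`, `heckeNorm_mem_Rw'` : `Tx ∈ Rw` (helper19/helper56's Gauss-fraction trick);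
* **`redL_heckeNorm`** : `redL (Tx) = heckeNorm ℓ (redL x)` — reduction commutes with `T_ℓ`;
* **`dlogL_redL_heckeNorm`** : if `(ℓ : k) ≠ 0` and `redL x ≠ 0` then
  `dlogL (redL Tx) = heckeT2 ℓ (dlogL (redL x))` (`GF/D3/Core.lean`), + coefficient form
  `coeff_dlogL_redL_heckeNorm_nat` in the shape of `GF/D4/DS.lean`.

Modular instance (`F = F_N` over `ℚ̄`, `heckeHom hM` of `GJ/Kum/KumType.lean`):
`redL_heckeHom`, `dlogL_redL_heckeHom`, `coeff_dlogL_redL_heckeHom_nat`.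
-/
import Mathlib
import Fermat.Agent.GF.D3.Core
import Fermat.Agent.GJ.J1.Val.GaussRedData
import Fermat.Agent.GJ.Kum.KumType

set_option autoImplicit false
set_option linter.unusedSectionVars false

noncomputable section

namespace Fermat.Agent.GF.D3

open HahnSeries ModularCurve IsLocalRing
open Fermat.Agent.GJ.J1 Fermat.Agent.GJ.J1.Val Fermat.Agent.GJ.Kum Fermat.Agent.GJ.Kum.KumType
  Fermat.Agent.GJ.KumGroup

/-! ### The Hecke norm of a quotient -/

section Div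

variable {K : Type*} [Field K] (ℓ : ℕ) [NeZero ℓ]

theorem heckeNorm_div {a b : LaurentSeries K} (hb : b ≠ 0) :
    heckeNorm ℓ (a / b) = heckeNorm ℓ a / heckeNorm ℓ b := by
  rw [eq_div_iff (heckeNorm_ne_zero_field ℓ hb), ← heckeNorm_mul, div_mul_cancel₀ _ hb]

end Div

/-! ### The generic Gauss frame -/

section Generic

variable {L : Type*} [Field L] {A : ValuationSubring L}
  {F : IntermediateField L (LaurentSeries L)} {hGF : HasGaussFrac A F}
  (ℓ : ℕ) [NeZero ℓ]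

/-- the Hecke norm of a Gauss fraction is a Gauss fraction -/
theorem isFrac_heckeNorm
    (hmem : ∀ a : LaurentSeries A, emb A a ∈ F → heckeNorm ℓ (emb A a) ∈ F)
    {x : LaurentSeries L} {a b : LaurentSeries A} (h : IsFrac A F x a b) :
    IsFrac A F (heckeNorm ℓ x) (heckeNorm ℓ a) (heckeNorm ℓ b) := by
  obtain ⟨ha, hb, hb0, hxb⟩ := h
  refine ⟨?_, ?_, ?_, ?_⟩
  · rw [emb, coeffMap_heckeNorm]
    exact hmem a ha
  · rw [emb, coeffMap_heckeNorm]
    exact hmem b hb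
  · rw [rd, coeffMap_heckeNorm]
    exact heckeNorm_ne_zero_field ℓ hb0
  · rw [emb, coeffMap_heckeNorm, coeffMap_heckeNorm, ← heckeNorm_mul]
    exact congrArg (heckeNorm ℓ) hxb

/-- the Hecke norm preserves the Gauss valuation ring -/
theorem heckeNorm_mem_Rw'
    (hmem : ∀ a : LaurentSeries A, emb A a ∈ F → heckeNorm ℓ (emb A a) ∈ F)
    {x Tx : F} (hx : x ∈ Rw A F hGF)
    (hT : (Tx : LaurentSeries L) = heckeNorm ℓ (x : LaurentSeries L)) : Tx ∈ Rw A F hGF := by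
  obtain ⟨a, b, h⟩ := hx
  refine ⟨heckeNorm ℓ a, heckeNorm ℓ b, ?_⟩
  rw [hT]
  exact isFrac_heckeNorm ℓ hmem h

/-- **reduction commutes with the Hecke norm.** -/
theorem redL_heckeNorm
    (hmem : ∀ a : LaurentSeries A, emb A a ∈ F → heckeNorm ℓ (emb A a) ∈ F)
    {x Tx : F} (hx : x ∈ Rw A F hGF)
    (hT : (Tx : LaurentSeries L) = heckeNorm ℓ (x : LaurentSeries L))
    (hTx : Tx ∈ Rw A F hGF) :
    redL A F hGF ⟨Tx, hTx⟩ = heckeNorm ℓ (redL A F hGF ⟨x, hx⟩) := by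
  have hx' := hx
  obtain ⟨a, b, h⟩ := hx'
  have h' : IsFrac A F (((⟨Tx, hTx⟩ : Rw A F hGF) : F) : LaurentSeries L)
      (heckeNorm ℓ a) (heckeNorm ℓ b) := by
    show IsFrac A F (Tx : LaurentSeries L) _ _
    rw [hT]
    exact isFrac_heckeNorm ℓ hmem h
  rw [redL_eq h', redL_eq (x := ⟨x, hx⟩) h, heckeNorm_div ℓ h.2.2.1, rd, coeffMap_heckeNorm,
    coeffMap_heckeNorm]

/-- **the logarithmic derivative of the reduction of `T_ℓ x`.** -/
theorem dlogL_redL_heckeNorm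
    (hmem : ∀ a : LaurentSeries A, emb A a ∈ F → heckeNorm ℓ (emb A a) ∈ F)
    (hℓ : (ℓ : ResidueField A) ≠ 0)
    {x Tx : F} (hx : x ∈ Rw A F hGF)
    (hT : (Tx : LaurentSeries L) = heckeNorm ℓ (x : LaurentSeries L))
    (hTx : Tx ∈ Rw A F hGF) (hred : redL A F hGF ⟨x, hx⟩ ≠ 0) :
    dlogL (redL A F hGF ⟨Tx, hTx⟩) = heckeT2 ℓ (dlogL (redL A F hGF ⟨x, hx⟩)) := by
  rw [redL_heckeNorm ℓ hmem hx hT hTx, dlogL_heckeNorm_eq_heckeT2 ℓ hℓ hred]

/-- coefficient form, in the shape of the eigen-relation of `GF/D4/DS.lean` -/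
theorem coeff_dlogL_redL_heckeNorm_nat
    (hmem : ∀ a : LaurentSeries A, emb A a ∈ F → heckeNorm ℓ (emb A a) ∈ F)
    (hℓ : (ℓ : ResidueField A) ≠ 0)
    {x Tx : F} (hx : x ∈ Rw A F hGF)
    (hT : (Tx : LaurentSeries L) = heckeNorm ℓ (x : LaurentSeries L))
    (hTx : Tx ∈ Rw A F hGF) (hred : redL A F hGF ⟨x, hx⟩ ≠ 0) (n : ℕ) :
    (dlogL (redL A F hGF ⟨Tx, hTx⟩)).coeff (n : ℤ) =
      (dlogL (redL A F hGF ⟨x, hx⟩)).coeff ((n * ℓ : ℕ) : ℤ) +
        if ℓ ∣ n then (ℓ : ResidueField A) * (dlogL (redL A F hGF ⟨x, hx⟩)).coeff ((n / ℓ : ℕ) : ℤ)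
        else 0 := by
  rw [redL_heckeNorm ℓ hmem hx hT hTx, coeff_dlogL_heckeNorm_nat ℓ hℓ hred]

end Generic

/-! ### The modular function field -/

section Modular

variable {N : ℕ} [NeZero N] {ℓ : ℕ} [NeZero ℓ] (A : ValuationSubring Kb)

/-- `T_ℓ (Rw₁) ⊆ Rw₁` -/
theorem heckeHom_mem_Rw (hM : HNMemHyp N ℓ) {x : FK N} (hx : x ∈ (redDataBar N A).Rw) :
    heckeHom hM x ∈ (redDataBar N A).Rw :=
  heckeNorm_mem_Rw' (hGF := hasGaussFrac_bar N A) ℓ (fun _ ha => hM _ ha) hx rfl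

/-- **reduction commutes with `T_ℓ` on `F_N`.** -/
theorem redL_heckeHom (hM : HNMemHyp N ℓ) {x : FK N} (hx : x ∈ (redDataBar N A).Rw) :
    redL A (modularFunctionFieldBar N) (hasGaussFrac_bar N A)
        ⟨heckeHom hM x, heckeHom_mem_Rw A hM hx⟩ =
      heckeNorm ℓ (redL A (modularFunctionFieldBar N) (hasGaussFrac_bar N A) ⟨x, hx⟩) :=
  redL_heckeNorm (hGF := hasGaussFrac_bar N A) ℓ (fun _ ha => hM _ ha) hx rfl _

/-- the same in `RedData` vocabulary (`(redDataBar N A).red` takes values in `FresBar N A`) -/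
theorem coe_red_heckeHom (hM : HNMemHyp N ℓ) {x : FK N} (hx : x ∈ (redDataBar N A).Rw) :
    (((redDataBar N A).red ⟨heckeHom hM x, heckeHom_mem_Rw A hM hx⟩ : FresBar N A) :
        LaurentSeries (ResidueField A)) =
      heckeNorm ℓ (((redDataBar N A).red ⟨x, hx⟩ : FresBar N A) :
        LaurentSeries (ResidueField A)) :=
  redL_heckeHom A hM hx

/-- **`dlog (red₁ (T_ℓ x)) = T_ℓ (dlog (red₁ x))`** on `q`-expansions over the residue field. -/
theorem dlogL_red_heckeHom (hM : HNMemHyp N ℓ) (hℓ : (ℓ : ResidueField A) ≠ 0)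
    {x : FK N} (hx : x ∈ (redDataBar N A).Rw) (hred : (redDataBar N A).red ⟨x, hx⟩ ≠ 0) :
    dlogL (((redDataBar N A).red ⟨heckeHom hM x, heckeHom_mem_Rw A hM hx⟩ : FresBar N A) :
        LaurentSeries (ResidueField A)) =
      heckeT2 ℓ (dlogL (((redDataBar N A).red ⟨x, hx⟩ : FresBar N A) :
        LaurentSeries (ResidueField A))) := by
  rw [coe_red_heckeHom A hM hx]
  refine dlogL_heckeNorm_eq_heckeT2 ℓ hℓ ?_
  intro h0
  exact hred (Subtype.ext h0)

/-- coefficient form, in the shape of the eigen-relation of `GF/D4/DS.lean` -/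
theorem coeff_dlogL_red_heckeHom_nat (hM : HNMemHyp N ℓ) (hℓ : (ℓ : ResidueField A) ≠ 0)
    {x : FK N} (hx : x ∈ (redDataBar N A).Rw) (hred : (redDataBar N A).red ⟨x, hx⟩ ≠ 0)
    (n : ℕ) :
    (dlogL (((redDataBar N A).red ⟨heckeHom hM x, heckeHom_mem_Rw A hM hx⟩ : FresBar N A) :
        LaurentSeries (ResidueField A))).coeff (n : ℤ) =
      (dlogL (((redDataBar N A).red ⟨x, hx⟩ : FresBar N A) :
        LaurentSeries (ResidueField A))).coeff ((n * ℓ : ℕ) : ℤ) +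
        if ℓ ∣ n then (ℓ : ResidueField A) *
          (dlogL (((redDataBar N A).red ⟨x, hx⟩ : FresBar N A) :
            LaurentSeries (ResidueField A))).coeff ((n / ℓ : ℕ) : ℤ) else 0 := by
  rw [dlogL_red_heckeHom A hM hℓ hx hred, coeff_heckeT2]
  congr 1
  · congr 1
    push_cast
    ring
  · by_cases h : ℓ ∣ n
    · rw [if_pos h, if_pos (Int.natCast_dvd_natCast.2 h), Int.natCast_div]
    · rw [if_neg h, if_neg (fun h' => h (Int.natCast_dvd_natCast.1 h'))]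

end Modular

end Fermat.Agent.GF.D3
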