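/-
GATE-F / S40, node GF-D3 HECKE, file 3 (helper17): A `T_ℓ`-EIGENCLASS OF `Kum_p(F_N)` HAS A
`T_ℓ`-EIGEN LOGARITHMIC DERIVATIVE — the class-level statement consumed by GF-END-ASM.

Frame: `N`, `A` a valuation subring of `ℚ̄` with residue characteristic `p`, `ℓ` with `(ℓ : k) ≠ 0`,
`T_ℓ = TEnd hM hD` on `Kum_p(F_N)` (`GJ/Kum/KumType.lean`).  Let `u` be a `p`-divisible unit of
`F_N` which is a UNIT of the Gauss valuation (`IsU (redDataBar N A) u`, helper86 `GF/Trop`), with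
reduction `ū ∈ FresBar N A ⊆ k((q))`, and `β := dlogL ū = θ(ū)/ū`.

* `dlogL_red_of_kum_eq` : two Gauss-unit representatives of one Kummer class have the same
  `dlogL` of the reduction (`θ` is well defined on classes);
* `dlogL_red_pow` : `dlogL (red (u^a)) = a • dlogL (red u)`;
* **`heckeT2_dlogL_of_eigen_nat`** : `T_ℓ [u] = a • [u]` (`a : ℕ`) ⟹ `heckeT2 ℓ β = (a : k) • β`;
* **`heckeT2_dlogL_of_eigen`** : `T_ℓ [u] = (a : ZMod p) • [u]` (`a : ℤ`) ⟹
  `heckeT2 ℓ β = (a : k) • β`;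
* **`coeff_of_eigen`** : coefficient form `β_{nℓ} + [ℓ ∣ n] ℓ β_{n/ℓ} = a β_n` — the `heig` binder
  of helper23's `GF/D4/DS.lean` VERBATIM (with `b̄ n = β.coeff n`).
-/
import Mathlib
import Fermat.Agent.GF.D3.RedHecke
import Fermat.Agent.GF.Trop.RedKum

set_option autoImplicit false
set_option linter.unusedSectionVars false

noncomputable section

namespace Fermat.Agent.GF.D3

open HahnSeries ModularCurve IsLocalRing AlgebraicCurve
open Fermat.Agent.GJ.J1 Fermat.Agent.GJ.J1.Val Fermat.Agent.GJ.Kum Fermat.Agent.GJ.Kum.KumType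
  Fermat.Agent.GJ.KumGroup Fermat.Agent.GF.Trop

variable {N : ℕ} [NeZero N] (A : ValuationSubring Kb) {p : ℕ} [Fact p.Prime]
  [CharP (ResidueField A) p]

/-- the reduction of a Gauss unit, as a Laurent series over the residue field -/
def redS {x : FK N} (hx : IsU (redDataBar N A) x) : LaurentSeries (ResidueField A) :=
  (((redDataBar N A).red ⟨x, hx.2.1⟩ : FresBar N A) : LaurentSeries (ResidueField A))

theorem redS_ne_zero {x : FK N} (hx : IsU (redDataBar N A) x) : redS A hx ≠ 0 := by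
  intro h0
  exact hx.red_ne_zero (Subtype.ext h0)

theorem redS_eq_coe_redUnit {x : FK N} (hx : IsU (redDataBar N A) x) :
    redS A hx = (((redUnit (redDataBar N A) hx : (FresBar N A)ˣ) : FresBar N A) :
      LaurentSeries (ResidueField A)) := rfl

theorem redS_congr {x y : FK N} (h : x = y) (hx : IsU (redDataBar N A) x)
    (hy : IsU (redDataBar N A) y) : redS A hx = redS A hy := by
  subst h
  rfl

theorem redS_mul {x y : FK N} (hx : IsU (redDataBar N A) x) (hy : IsU (redDataBar N A) y) :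
    redS A (hx.mul hy) = redS A hx * redS A hy := by
  rw [redS_eq_coe_redUnit, redUnit_mul hx hy]
  rfl

theorem redS_pow {x : FK N} (hx : IsU (redDataBar N A) x) (n : ℕ) :
    redS A (hx.pow n) = redS A hx ^ n := by
  rw [redS_eq_coe_redUnit, redUnit_pow hx n]
  rfl

/-- `dlogL (red (x^a)) = a • dlogL (red x)` -/
theorem dlogL_redS_pow {x : FK N} (hx : IsU (redDataBar N A) x) (a : ℕ) :
    dlogL (redS A (hx.pow a)) = (a : ResidueField A) • dlogL (redS A hx) := by
  rw [redS_pow, dlogL_pow]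

/-- **`θ` is well defined on Kummer classes**: two Gauss-unit representatives of one class have
the same logarithmic derivative of the reduction. -/
theorem dlogL_redS_of_kum_eq {u v : pDivUnits Kb (FK N) p}
    (hu : IsU (redDataBar N A) (((u : (FK N)ˣ) : FK N)))
    (hv : IsU (redDataBar N A) (((v : (FK N)ˣ) : FK N)))
    (huv : Kum.mk u = Kum.mk v) : dlogL (redS A hv) = dlogL (redS A hu) := by
  have hp : 0 < p := (Fact.out : p.Prime).pos
  obtain ⟨w, hw⟩ := Kum.mk_eq_mk_iff.mp huv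
  have hwF : ((v : (FK N)ˣ) : FK N) = ((u : (FK N)ˣ) : FK N) * ((w : (FK N)ˣ) : FK N) ^ p := by
    rw [hw]
    simp
  have hwp : IsU (redDataBar N A) (((w : (FK N)ˣ) : FK N) ^ p) := by
    have e : ((w : (FK N)ˣ) : FK N) ^ p =
        (((u : (FK N)ˣ) : FK N))⁻¹ * ((v : (FK N)ˣ) : FK N) := by
      rw [hwF, ← mul_assoc, inv_mul_cancel₀ hu.1, one_mul]
    rw [e]
    exact hu.inv.mul hv
  have hwU : IsU (redDataBar N A) ((w : (FK N)ˣ) : FK N) := isU_of_pow hp hwp
  have h1 : redS A hv = redS A hu * redS A hwU ^ p := by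
    rw [← redS_pow, ← redS_mul]
    exact redS_congr A hwF _ _
  rw [h1, dlogL_mul (redS_ne_zero A hu) (pow_ne_zero p (redS_ne_zero A hwU)),
    dlogL_pow_char p, add_zero]

variable {ℓ : ℕ} [NeZero ℓ]

/-- the reduction of `T_ℓ u` is the Hecke norm of the reduction -/
theorem isU_heckeUnits (hM : HNMemHyp N ℓ) {u : (FK N)ˣ}
    (hu : IsU (redDataBar N A) ((u : (FK N)ˣ) : FK N)) :
    IsU (redDataBar N A) (((heckeUnits hM u : (FK N)ˣ) : FK N)) := by
  refine ⟨(heckeUnits hM u).ne_zero, heckeHom_mem_Rw A hM hu.2.1, ?_⟩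
  have h : (((heckeUnits hM u : (FK N)ˣ) : FK N))⁻¹ =
      heckeHom hM (((u⁻¹ : (FK N)ˣ) : (FK N)ˣ) : FK N) := by
    rw [← Units.val_inv_eq_inv_val, ← map_inv]
    rfl
  rw [h]
  have h2 : (((u⁻¹ : (FK N)ˣ) : (FK N)ˣ) : FK N) ∈ (redDataBar N A).Rw := by
    rw [Units.val_inv_eq_inv_val]
    exact hu.2.2
  exact heckeHom_mem_Rw A hM h2

theorem redS_heckeUnits (hM : HNMemHyp N ℓ) {u : (FK N)ˣ}
    (hu : IsU (redDataBar N A) ((u : (FK N)ˣ) : FK N)) :
    redS A (isU_heckeUnits A hM hu) = heckeNorm ℓ (redS A hu) :=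
  coe_red_heckeHom A hM hu.2.1

/-- **`dlog (red₁ (T_ℓ u)) = T_ℓ (dlog (red₁ u))`** for Gauss units. -/
theorem dlogL_redS_heckeUnits (hM : HNMemHyp N ℓ) (hℓ : (ℓ : ResidueField A) ≠ 0) {u : (FK N)ˣ}
    (hu : IsU (redDataBar N A) ((u : (FK N)ˣ) : FK N)) :
    dlogL (redS A (isU_heckeUnits A hM hu)) = heckeT2 ℓ (dlogL (redS A hu)) := by
  rw [redS_heckeUnits A hM hu, dlogL_heckeNorm_eq_heckeT2 ℓ hℓ (redS_ne_zero A hu)]

/-- **a `T_ℓ`-eigenclass has a `T_ℓ`-eigen logarithmic derivative** (`a : ℕ`). -/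
theorem heckeT2_dlogL_of_eigen_nat (hM : HNMemHyp N ℓ) (hD : HNDivHyp N p ℓ)
    (hℓ : (ℓ : ResidueField A) ≠ 0) (u : pDivUnits Kb (FK N) p)
    (hu : IsU (redDataBar N A) (((u : (FK N)ˣ) : FK N))) (a : ℕ)
    (heig : TEnd hM hD (Additive.ofMul (Kum.mk u)) = a • Additive.ofMul (Kum.mk u)) :
    heckeT2 ℓ (dlogL (redS A hu)) = (a : ResidueField A) • dlogL (redS A hu) := by
  have hTu : IsU (redDataBar N A)
      ((((⟨heckeUnits hM u, heckeUnits_mem hM hD u u.2⟩ : pDivUnits Kb (FK N) p) : (FK N)ˣ)) :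
        FK N) := isU_heckeUnits A hM hu
  have hua : IsU (redDataBar N A) ((((u ^ a : pDivUnits Kb (FK N) p) : (FK N)ˣ)) : FK N) := by
    have := hu.pow a
    simpa using this
  have hcls : Kum.mk (u ^ a) =
      Kum.mk (⟨heckeUnits hM u, heckeUnits_mem hM hD u u.2⟩ : pDivUnits Kb (FK N) p) := by
    rw [TEnd_mk, ← ofMul_pow, ← map_pow] at heig
    exact (Additive.ofMul.injective heig).symm
  have h1 := dlogL_redS_of_kum_eq A hua hTu hcls
  have h2 : dlogL (redS A hTu) = heckeT2 ℓ (dlogL (redS A hu)) :=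
    dlogL_redS_heckeUnits A hM hℓ hu
  have h3 : redS A hua = redS A (hu.pow a) := redS_congr A (by simp) _ _
  rw [← h2, h1, h3, dlogL_redS_pow]

/-- **a `T_ℓ`-eigenclass has a `T_ℓ`-eigen logarithmic derivative** (`a : ℤ` through `ZMod p`). -/
theorem heckeT2_dlogL_of_eigen (hM : HNMemHyp N ℓ) (hD : HNDivHyp N p ℓ)
    (hℓ : (ℓ : ResidueField A) ≠ 0) (u : pDivUnits Kb (FK N) p)
    (hu : IsU (redDataBar N A) (((u : (FK N)ˣ) : FK N))) (a : ℤ)
    (heig : TEnd hM hD (Additive.ofMul (Kum.mk u)) =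
      (a : ZMod p) • Additive.ofMul (Kum.mk u)) :
    heckeT2 ℓ (dlogL (redS A hu)) = (a : ResidueField A) • dlogL (redS A hu) := by
  have hcast : ((a : ZMod p).val : ResidueField A) = (a : ResidueField A) := by
    have h1 : (((a : ZMod p).val : ℕ) : ZMod p) = (a : ZMod p) := ZMod.natCast_zmod_val _
    have h2 : ((((a : ZMod p).val : ℕ) : ℤ) : ZMod p) = ((a : ℤ) : ZMod p) := by
      rw [Int.cast_natCast, h1]
    have h3 := (ZMod.intCast_eq_intCast_iff_dvd_sub _ _ p).1 h2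
    have h4 : ((p : ℤ) : ResidueField A) = 0 := by
      rw [Int.cast_natCast]
      exact CharP.cast_eq_zero _ p
    obtain ⟨c, hc⟩ := h3
    have h5 : ((a - ((a : ZMod p).val : ℤ) : ℤ) : ResidueField A) = 0 := by
      rw [hc, Int.cast_mul, h4, zero_mul]
    rw [Int.cast_sub, Int.cast_natCast, sub_eq_zero] at h5
    exact h5.symm
  have heig' : TEnd hM hD (Additive.ofMul (Kum.mk u)) =
      (a : ZMod p).val • Additive.ofMul (Kum.mk u) := by
    rw [heig, ← Nat.cast_smul_eq_nsmul (ZMod p), ZMod.natCast_zmod_val]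
  rw [heckeT2_dlogL_of_eigen_nat A hM hD hℓ u hu _ heig', hcast]

/-- **coefficient form** = the `heig` binder of `GF/D4/DS.lean` with `b̄ n := β.coeff n`,
`β = dlogL (red₁ u)`. -/
theorem coeff_of_eigen (hM : HNMemHyp N ℓ) (hD : HNDivHyp N p ℓ)
    (hℓ : (ℓ : ResidueField A) ≠ 0) (u : pDivUnits Kb (FK N) p)
    (hu : IsU (redDataBar N A) (((u : (FK N)ˣ) : FK N))) (a : ℤ)
    (heig : TEnd hM hD (Additive.ofMul (Kum.mk u)) =
      (a : ZMod p) • Additive.ofMul (Kum.mk u)) (n : ℕ) :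
    (dlogL (redS A hu)).coeff ((n * ℓ : ℕ) : ℤ) +
      (if ℓ ∣ n then (ℓ : ResidueField A) * (dlogL (redS A hu)).coeff ((n / ℓ : ℕ) : ℤ) else 0) =
      (a : ResidueField A) * (dlogL (redS A hu)).coeff (n : ℤ) := by
  have h := congrArg (fun f : LaurentSeries (ResidueField A) => f.coeff (n : ℤ))
    (heckeT2_dlogL_of_eigen A hM hD hℓ u hu a heig)
  simp only [coeff_heckeT2, HahnSeries.coeff_smul, smul_eq_mul] at h
  rw [← h]
  congr 1
  · congr 1
    push_cast
    ring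
  · by_cases h' : ℓ ∣ n
    · rw [if_pos h', if_pos (Int.natCast_dvd_natCast.2 h'), Int.natCast_div]
    · rw [if_neg h', if_neg (fun h'' => h' (Int.natCast_dvd_natCast.1 h''))]

end Fermat.Agent.GF.D3
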