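/-
GATE-F / S40, node GF-D3 HECKE, file 4 (helper17): BRIDGE from GF-D2 (helper62 `Contracts.lean`:
`th`, `qSeries`, `D2Export`) through GF-D3 to the `heig` binder of GF-D4 (helper23 `DS.lean`).

* `th_eq_thetaL` : helper62's `th = single 1 1 * derivative` is `thetaL` (`(θ a)_n = n a_n`);
* `coeff_qSeries`, `dlogL_eq_qSeries` : `th ū = ū * qSeries c`, `ū ≠ 0` ⟹ `dlogL ū = qSeries c`;
* **`heig_of_d2_eigen`** : `u` a `p`-divisible Gauss unit of `F_N` with `T_ℓ [u] = a • [u]` and
  `th (red u) = red u * qSeries (res ∘ b)` (the conclusion of `D2Export`) ⟹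
  `res (b (n ℓ)) + [ℓ ∣ n] ℓ res (b (n / ℓ)) = a · res (b n)` for all `n` — `heig` of
  `GF/D4/DS.exists_coeff_of_goodAlg` / `isResiduallyModularOfLevel_of_modEigen` VERBATIM.
-/
import Mathlib
import Fermat.Agent.GF.D3.Eigen
import Fermat.Agent.GF.D2.Contracts

set_option autoImplicit false
set_option linter.unusedSectionVars false

noncomputable section

namespace Fermat.Agent.GF.D3

open HahnSeries ModularCurve IsLocalRing AlgebraicCurve
open Fermat.Agent.GJ.J1 Fermat.Agent.GJ.J1.Val Fermat.Agent.GJ.Kum Fermat.Agent.GJ.Kum.KumType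
  Fermat.Agent.GJ.KumGroup Fermat.Agent.GF.Trop Fermat.Agent.GJ.Haupt Fermat.Agent.GF.D2

section Series

variable {S : Type*} [CommRing S]

/-- helper62's `θ` is `thetaL` -/
theorem th_eq_thetaL (a : LaurentSeries S) : th a = thetaL a := by
  ext n
  rw [th, HahnSeries.coeff_single_mul, one_mul, LaurentSeries.derivative_apply,
    LaurentSeries.hasseDeriv_coeff, thetaL_coeff]
  have h1 : n - 1 + ((1 : ℕ) : ℤ) = n := by push_cast; ring
  rw [h1, Ring.choose_one_right, zsmul_eq_mul]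

theorem coeff_qSeries (c : ℕ → S) (n : ℕ) : (qSeries c).coeff (n : ℤ) = c n := by
  rw [qSeries, HahnSeries.ofPowerSeries_apply_coeff, PowerSeries.coeff_mk]

end Series

section Field

variable {K : Type*} [Field K]

/-- `θ ū = ū · f` ⟹ `dlog ū = f` -/
theorem dlogL_eq_of_th {u f : LaurentSeries K} (hu : u ≠ 0) (h : th u = u * f) :
    dlogL u = f := by
  rw [dlogL, ← th_eq_thetaL, h, mul_comm u f, mul_assoc, mul_inv_cancel₀ hu, mul_one]

end Field

variable {N : ℕ} [NeZero N] (A : ValuationSubring Kb) {p : ℕ} [Fact p.Prime]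
  [CharP (ResidueField A) p] {ℓ : ℕ} [NeZero ℓ]

/-- **D2 ⟹ D3 ⟹ `heig` of D4**: the reduced `q`-expansion `b̄` produced by GF-D2 for a
`T_ℓ`-eigenclass satisfies the formal `T_ℓ`-eigen relation. -/
theorem heig_of_d2_eigen (hM : HNMemHyp N ℓ) (hD : HNDivHyp N p ℓ)
    (hℓ : (ℓ : ResidueField A) ≠ 0) (u : pDivUnits Kb (FK N) p)
    (hu : IsU (redDataBar N A) (((u : (FK N)ˣ) : FK N))) (a : ℤ)
    (heig : TEnd hM hD (Additive.ofMul (Kum.mk u)) =
      (a : ZMod p) • Additive.ofMul (Kum.mk u))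
    (b : ℕ → A)
    (hb : th (redS A hu) = redS A hu * qSeries (fun n => IsLocalRing.residue A (b n)))
    (n : ℕ) :
    IsLocalRing.residue A (b (n * ℓ)) +
      (if ℓ ∣ n then (ℓ : ResidueField A) * IsLocalRing.residue A (b (n / ℓ)) else 0) =
      (a : ResidueField A) * IsLocalRing.residue A (b n) := by
  have h1 := dlogL_eq_of_th (redS_ne_zero A hu) hb
  have h2 := coeff_of_eigen A hM hD hℓ u hu a heig n
  rw [h1, coeff_qSeries, coeff_qSeries, coeff_qSeries] at h2
  exact h2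

end Fermat.Agent.GF.D3
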